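/-
Lib/EtaUnit (architect helper213).  TASK EU-4 (proofs: helper233).
-/
import Fermat.Agent.Lib.EtaUnit.Orbit
import Fermat.Agent.S24.FFBasic

set_option autoImplicit false

namespace Fermat.Agent.Lib.EtaUnit

open UpperHalfPlane ModularCurve CongruenceSubgroup AlgebraicCurve IntermediateField
open Fermat.Agent.S24 Fermat.Agent.S24.B
open scoped MatrixGroups Real Manifold

variable {N : ℕ} [NeZero N]

/-- The `q`-expansion of `u` is that of `f` (`texpL_Psi`, `phi1`, `hasTExp_tex`). -/
theorem hasTExp_of_tex_eq (f : WHA N) (u : FN N) (hu : texpL N (Psi N u) = tex N f) :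
    HasTExp N f.1 (qExpand Kbar N (u : LaurentSeries Kbar)) := by
  have h := hasTExp_tex f
  rw [← hu, texpL_Psi] at h
  exact h

/-- `Psi N u` is the "function" `f`: write `Psi N u = a / b` (`IsFractionRing.div_surjective`); then
`a - f b` has the expansion `0` (`HasTExp.eq_zero`). -/
theorem exists_fraction_of_tex_eq (f : WHA N) (u : FN N) (hu : texpL N (Psi N u) = tex N f) :
    ∃ a b : AL N, b ≠ 0 ∧ Psi N u = algebraMap (AL N) (LN N) a / algebraMap (AL N) (LN N) b ∧
      ∀ τ : ℍ, a.1 τ = f.1 τ * b.1 τ := by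
  obtain ⟨a, b, hb, hab⟩ := IsFractionRing.div_surjective (A := AL N) (Psi N u)
  have hb0 : b ≠ 0 := nonZeroDivisors.ne_zero hb
  refine ⟨a, b, hb0, hab.symm, ?_⟩
  have hb1 : texp N b ≠ 0 := by
    intro h
    exact hb0 (texp_injective (by rw [h, map_zero]))
  have h1 : texp N a = tex N f * texp N b := by
    rw [← hu, ← hab, map_div₀, texpL_algebraMap, texpL_algebraMap, div_mul_cancel₀ _ hb1]
  have h2 : HasTExp N (a.1 - f.1 * b.1) 0 := by
    have h3 := (hasTExp_texp a).sub ((hasTExp_tex f).mul (hasTExp_texp b))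
    rw [h1, sub_self] at h3
    exact h3
  intro τ
  have h4 := congrFun h2.eq_zero τ
  simp only [Pi.sub_apply, Pi.mul_apply, Pi.zero_apply] at h4
  exact sub_eq_zero.mp h4

/-- An element integral over `ℚ̄[j]` has no pole at the places where `j` is finite
(the valuation subring of `v` contains `ℚ̄` and `j`, and is integrally closed). -/
theorem ord_nonneg_of_isIntegral (u : FN N) (hu : IsIntegral (Algebra.adjoin Kbar {jF N}) u)
    (v : Place Kbar (FN N)) (hv : 0 ≤ v.ord (jF N)) : 0 ≤ v.ord u := by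
  apply FF.ord_nonneg_of_mem
  have hj : jF N ∈ v.toValuationSubring := FF.mem_of_ord_nonneg v hv
  let V : Subalgebra Kbar (FN N) :=
    { v.toValuationSubring.toSubring with algebraMap_mem' := v.algebraMap_mem' }
  have hle : Algebra.adjoin Kbar {jF N} ≤ V := by
    apply Algebra.adjoin_le
    intro x hx
    rw [Set.mem_singleton_iff] at hx
    rw [hx]
    exact hj
  let φ : Algebra.adjoin Kbar {jF N} →+* v.toValuationSubring :=
    { toFun := fun x => ⟨x.1, hle x.2⟩
      map_one' := rfl
      map_mul' := fun _ _ => rfl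
      map_zero' := rfl
      map_add' := fun _ _ => rfl }
  obtain ⟨p, hp, hpu⟩ := hu
  have hint : IsIntegral v.toValuationSubring u := by
    refine ⟨p.map φ, hp.map φ, ?_⟩
    rw [Polynomial.eval₂_map]
    exact hpu
  obtain ⟨y, hy⟩ := IsIntegrallyClosed.isIntegral_iff.mp hint
  rw [← hy]
  exact y.2

end Fermat.Agent.Lib.EtaUnit
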