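/-
Lib/EtaUnit (architect helper213).  TASK EU-2.
The statement `exists_FN_of_fixed` is a frozen interface (proved by helper230).

MEM: an element of `WHA N` fixed by `Γ₀(N)` "is" an element of the function field `FN N`.
-/
import Fermat.Agent.Lib.EtaUnit.Orbit
import Fermat.Agent.Lib.EtaUnit.Interp

set_option autoImplicit false

namespace Fermat.Agent.Lib.EtaUnit

open UpperHalfPlane ModularCurve CongruenceSubgroup IntermediateField
open Fermat.Agent.S24 Fermat.Agent.S24.B
open scoped MatrixGroups Real Manifold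

variable {N : ℕ} [NeZero N]

/-- `γ` fixes `Psi N (Kbar⟮jF N⟯)`. -/
theorem smul_Psi_of_mem_adjoin_jF (γ : SL(2, ℤ)) (r : FN N) (hr : r ∈ Kbar⟮jF N⟯) :
    γ • Psi N r = Psi N r := by
  induction hr using IntermediateField.adjoin_induction with
  | mem y hy =>
    rw [Set.mem_singleton_iff] at hy
    subst hy
    exact smul_Psi_jF γ
  | algebraMap c => rw [AlgHom.commutes, smul_algebraMap_Kbar]
  | add y z _ _ hy hz => rw [map_add, smul_add, hy, hz]
  | inv y _ hy => rw [map_inv₀, smul_inv'', hy]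
  | mul y z _ _ hy hz => rw [map_mul, smul_mul', hy, hz]

variable (N) in
/-- The image of `Kbar⟮jF N⟯` in the field of Laurent series. -/
noncomputable def kSub : Subfield (LaurentSeries Kbar) :=
  (Kbar⟮jF N⟯).toSubfield.map (phi1 N).toRingHom

theorem mem_kSub {x : LaurentSeries Kbar} : x ∈ kSub N ↔ ∃ r ∈ Kbar⟮jF N⟯, phi1 N r = x :=
  Iff.rfl

theorem phi1_jF_eq_tex : phi1 N (jF N) = tex N (inclAL N (jd N 1 (one_dvd N))) := by
  rw [tex_inclAL, ← texpL_algebraMap, ← phi1_JF]
  rfl

/-- The expansion of an invariant element lies in `kSub N`. -/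
theorem tex_mem_kSub (F : WHA N) (hF : ∀ γ : SL(2, ℤ), γ • F = F) : tex N F ∈ kSub N := by
  obtain ⟨p, hp⟩ := exists_poly_of_invariant_WHA F hF
  refine mem_kSub.2 ⟨Polynomial.aeval (jF N) p, ?_, ?_⟩
  · exact IntermediateField.algebra_adjoin_le_adjoin Kbar {jF N}
      (Polynomial.aeval_mem_adjoin_singleton Kbar (jF N))
  · rw [hp, ← Polynomial.aeval_algHom_apply, ← Polynomial.aeval_algHom_apply, phi1_jF_eq_tex]

/-- PROOF.  `Ω = LaurentSeries Kbar`, `k` = image of `Kbar⟮jF N⟯` under `phi1 N`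
(= `texpL N ∘ Psi N`, see `texpL_Psi`), `ι = Q N`, `y i = tex N (orb jN _ i)` (injective by
`orb_jN_injective`, `tex_injective`), `f i = tex N (orb f hf i)`.  The sums `∑ i, orb jN i ^ m` and
`∑ i, orb f i * orb jN i ^ m` are invariant (`smul_sum_of_equivariant`, `smul_orb`), hence polynomials
in `j` (`exists_poly_of_invariant_WHA`), so their expansions lie in `k`
(`tex_inclAL`, `texp_jd`, `phi1_JF`).  `exists_poly_of_power_sums` gives `c`; lift its coefficients
to `Kbar⟮jF N⟯` and put `u = ∑ c̃_m * (JF N N _) ^ m`.  Then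
`texpL N (γ • Psi N u) = ∑ phi1 c̃_m * tex (γ • jN) ^ m` because `γ` fixes `Psi N (Kbar⟮jF N⟯)`
(`smul_Psi_jF`, `smul_algebraMap_Kbar`, `IntermediateField.adjoin_induction`), `Psi_JF`,
`smul_algebraMap_AL`, `texpL_algebraMap`. -/
theorem exists_FN_of_fixed (f : WHA N) (hf : ∀ γ ∈ Gamma0 N, γ • f = f) :
    ∃ u : FN N, ∀ γ : SL(2, ℤ), texpL N (γ • Psi N u) = tex N (γ • f) := by
  classical
  obtain ⟨c, hc⟩ := exists_poly_of_power_sums (kSub N)
    (fun i : Q N => tex N (orb (jN : WHA N) smul_jN_of_mem i))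
    (fun i : Q N => tex N (orb f hf i))
    (tex_injective.comp orb_jN_injective)
    (fun m => by
      have h : ∑ i : Q N, tex N (orb (jN : WHA N) smul_jN_of_mem i) ^ m
          = tex N (∑ i : Q N, orb (jN : WHA N) smul_jN_of_mem i ^ m) := by
        rw [map_sum]
        exact Finset.sum_congr rfl fun i _ => (map_pow _ _ _).symm
      rw [h]
      refine tex_mem_kSub _ (smul_sum_of_equivariant _ fun g i => ?_)
      rw [smul_pow', smul_orb])
    (fun m => by
      have h : ∑ i : Q N, tex N (orb f hf i) * tex N (orb (jN : WHA N) smul_jN_of_mem i) ^ m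
          = tex N (∑ i : Q N, orb f hf i * orb (jN : WHA N) smul_jN_of_mem i ^ m) := by
        rw [map_sum]
        exact Finset.sum_congr rfl fun i _ => by rw [map_mul, map_pow]
      rw [h]
      refine tex_mem_kSub _ (smul_sum_of_equivariant _ fun g i => ?_)
      rw [smul_mul', smul_pow', smul_orb, smul_orb])
  have hlift : ∀ m : ℕ, ∃ r ∈ Kbar⟮jF N⟯, phi1 N r = (c.coeff m : LaurentSeries Kbar) :=
    fun m => mem_kSub.1 (c.coeff m).2
  choose r hr hrc using hlift
  refine ⟨∑ m ∈ Finset.range (c.natDegree + 1), r m * JF N N dvd_rfl ^ m, fun γ => ?_⟩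
  have h1 := hc (QuotientGroup.mk γ)
  simp only [orb_mk] at h1
  rw [h1, Polynomial.aeval_eq_sum_range, map_sum, Finset.smul_sum, map_sum]
  refine Finset.sum_congr rfl fun m _ => ?_
  rw [map_mul, map_pow, smul_mul', smul_pow', smul_Psi_of_mem_adjoin_jF γ _ (hr m), Psi_JF,
    smul_algebraMap_AL, map_mul, map_pow, texpL_Psi, hrc, texpL_algebraMap, jN, smul_inclAL,
    tex_inclAL]
  rfl

end Fermat.Agent.Lib.EtaUnit
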