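/-
Lib/EtaUnit (architect helper213).  TASK EU-3.
(proved by helper226)
-/
import Fermat.Agent.Lib.EtaUnit.Orbit

set_option autoImplicit false

namespace Fermat.Agent.Lib.EtaUnit

open UpperHalfPlane ModularCurve CongruenceSubgroup IntermediateField
open Fermat.Agent.S24 Fermat.Agent.S24.B
open scoped MatrixGroups Real Manifold

variable {N : ℕ} [NeZero N]

/-- PROOF.  `P = ∏ i, (X - C (orb f hf i))` is monic with invariant coefficients
(`smul_prod_X_sub_C_of_equivariant`, `smul_orb`), so every coefficient is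
`aeval (inclAL N (jd N 1 _)) p_k` (`exists_poly_of_invariant_WHA`).  Let
`P' : (Algebra.adjoin Kbar {jF N})[X]` be the monic polynomial with coefficients `aeval (jF N) p_k`.
`phi1 N` (injective, `= texpL N ∘ Psi N` by `texpL_Psi`) maps `P'(u)` to
`(P.map (tex N)).eval (tex N f) = 0` (the factor `i = mk 1` vanishes; `tex_inclAL`, `texp_jd`,
`phi1_JF`). -/
theorem isIntegral_of_tex_eq (f : WHA N) (hf : ∀ γ ∈ Gamma0 N, γ • f = f) (u : FN N)
    (hu : texpL N (Psi N u) = tex N f) : IsIntegral (Algebra.adjoin Kbar {jF N}) u := by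
  classical
  set J : WHA N := inclAL N (jd N 1 (one_dvd N)) with hJ
  set P : Polynomial (WHA N) := ∏ i, (Polynomial.X - Polynomial.C (orb f hf i)) with hP
  have hPmonic : P.Monic :=
    Polynomial.monic_prod_of_monic _ _ (fun i _ => Polynomial.monic_X_sub_C _)
  have hPf : P.eval f = 0 := by
    rw [hP, Polynomial.eval_prod]
    refine Finset.prod_eq_zero (Finset.mem_univ (QuotientGroup.mk 1 : Q N)) ?_
    rw [orb_mk, one_smul]
    simp
  let φ : Polynomial Kbar →+* WHA N := (Polynomial.aeval J).toRingHom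
  have hlift : P ∈ Polynomial.lifts φ := by
    rw [Polynomial.lifts_iff_coeff_lifts]
    intro k
    have hinv : ∀ γ : SL(2, ℤ), γ • P.coeff k = P.coeff k := by
      intro γ
      have := congrArg (fun q => Polynomial.coeff q k)
        (smul_prod_X_sub_C_of_equivariant (orb f hf) (smul_orb f hf) γ)
      simpa only [Polynomial.coeff_map, MulSemiringAction.toRingHom_apply] using this
    obtain ⟨p, hp⟩ := exists_poly_of_invariant_WHA _ hinv
    exact ⟨p, hp.symm⟩
  obtain ⟨Q, hQ, -, hQmonic⟩ := Polynomial.lifts_and_natDegree_eq_and_monic hlift hPmonic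
  let j' : Algebra.adjoin Kbar {jF N} := ⟨jF N, Algebra.subset_adjoin (Set.mem_singleton _)⟩
  let ψ : Polynomial Kbar →+* Algebra.adjoin Kbar {jF N} := (Polynomial.aeval j').toRingHom
  refine ⟨Q.map ψ, hQmonic.map ψ, ?_⟩
  apply (phi1 N).toRingHom.injective
  rw [map_zero, Polynomial.eval₂_map, Polynomial.hom_eval₂]
  have hphiu : (phi1 N).toRingHom u = tex N f := by
    rw [← hu, texpL_Psi]
    rfl
  have htexJ : tex N J = phi1 N (jF N) := by
    rw [hJ, tex_inclAL, ← texpL_algebraMap, ← phi1_JF]
    rfl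
  have hhom : (phi1 N).toRingHom.comp
      ((algebraMap (Algebra.adjoin Kbar {jF N}) (FN N)).comp ψ) = (tex N).toRingHom.comp φ := by
    refine Polynomial.ringHom_ext (fun c => ?_) ?_
    · show phi1 N (algebraMap (Algebra.adjoin Kbar {jF N}) (FN N)
        (Polynomial.aeval j' (Polynomial.C c))) = tex N (Polynomial.aeval J (Polynomial.C c))
      rw [Polynomial.aeval_C, Polynomial.aeval_C, ← IsScalarTower.algebraMap_apply,
        AlgHom.commutes, AlgHom.commutes]
    · show phi1 N (algebraMap (Algebra.adjoin Kbar {jF N}) (FN N)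
        (Polynomial.aeval j' Polynomial.X)) = tex N (Polynomial.aeval J Polynomial.X)
      rw [Polynomial.aeval_X, Polynomial.aeval_X, htexJ]
      rfl
  rw [hhom, hphiu]
  have h1 : Polynomial.eval₂ ((tex N).toRingHom.comp φ) ((tex N).toRingHom f) Q =
      (tex N).toRingHom (Polynomial.eval₂ φ f Q) := (Polynomial.hom_eval₂ Q φ _ f).symm
  have h2 : Polynomial.eval₂ φ f Q = 0 := by
    rw [← Polynomial.eval_map, hQ, hPf]
  rw [h2, map_zero] at h1
  exact h1

end Fermat.Agent.Lib.EtaUnit
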